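import Mathlib

set_option autoImplicit false

namespace Fermat.Agent.S24.GenusNat

open Equiv Equiv.Perm

section PermOrbits

variable {X : Type*} [Fintype X] [DecidableEq X] (σ : Perm X)

/-- Classifying map of the cycles of `σ`: fixed points, resp. the cycle through a moved point. -/
noncomputable def orbFun (x : X) :
    {x // x ∉ σ.support} ⊕ {c // c ∈ σ.cycleFactorsFinset} :=
  if h : x ∈ σ.support then Sum.inr ⟨σ.cycleOf x, cycleOf_mem_cycleFactorsFinset_iff.mpr h⟩
  else Sum.inl ⟨x, h⟩

theorem orbFun_eq_iff (x y : X) : orbFun σ x = orbFun σ y ↔ SameCycle σ x y := by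
  unfold orbFun
  by_cases hx : x ∈ σ.support <;> by_cases hy : y ∈ σ.support
  · rw [dif_pos hx, dif_pos hy, Sum.inr.injEq, Subtype.mk.injEq]
    exact (sameCycle_iff_cycleOf_eq_of_mem_support hx hy).symm
  · rw [dif_pos hx, dif_neg hy]
    constructor
    · intro h; exact absurd h (by simp)
    · intro h
      exact absurd (h.mem_support_iff.mp hx) hy
  · rw [dif_neg hx, dif_pos hy]
    constructor
    · intro h; exact absurd h (by simp)
    · intro h
      exact absurd (h.mem_support_iff.mpr hy) hx
  · rw [dif_neg hx, dif_neg hy, Sum.inl.injEq, Subtype.mk.injEq]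
    constructor
    · rintro rfl; exact SameCycle.refl _ _
    · intro h
      exact h.eq_of_left (by simpa [Function.IsFixedPt] using hx)

theorem orbFun_surjective : Function.Surjective (orbFun σ) := by
  rintro (⟨x, hx⟩ | ⟨c, hc⟩)
  · exact ⟨x, by rw [orbFun, dif_neg hx]⟩
  · obtain ⟨hcyc, hcσ⟩ := mem_cycleFactorsFinset_iff.mp hc
    obtain ⟨a, ha, -⟩ := hcyc
    have ha' : a ∈ c.support := mem_support.mpr ha
    have haσ : a ∈ σ.support := by
      rw [mem_support, ← hcσ a ha']; exact ha
    refine ⟨a, ?_⟩
    rw [orbFun, dif_pos haσ]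
    congr 1
    exact Subtype.ext (cycle_is_cycleOf ha' hc).symm

/-- The number of cycles (orbits) of `σ`, including fixed points. -/
noncomputable def orbCount : ℕ := Nat.card (Quotient (SameCycle.setoid σ))

theorem orbCount_eq :
    orbCount σ = (Fintype.card X - σ.support.card) + σ.cycleFactorsFinset.card := by
  have hwd : ∀ a b : X, (SameCycle.setoid σ).r a b → orbFun σ a = orbFun σ b :=
    fun a b h => (orbFun_eq_iff σ a b).mpr h
  have hbij : Function.Bijective (Quotient.lift (orbFun σ) hwd) := by
    constructor
    · intro q₁ q₂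
      induction q₁ using Quotient.inductionOn with | _ a => ?_
      induction q₂ using Quotient.inductionOn with | _ b => ?_
      intro h
      exact Quotient.sound ((orbFun_eq_iff σ a b).mp h)
    · intro z
      obtain ⟨a, ha⟩ := orbFun_surjective σ z
      exact ⟨Quotient.mk _ a, ha⟩
  rw [orbCount, Nat.card_congr (Equiv.ofBijective _ hbij), Nat.card_sum,
    Nat.card_eq_fintype_card, Nat.card_eq_fintype_card, Fintype.card_coe]
  congr 1
  rw [Fintype.card_subtype_compl, Fintype.card_coe]

theorem card_cycleType_eq : Multiset.card σ.cycleType = σ.cycleFactorsFinset.card := by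
  rw [cycleType_def, Multiset.card_map]; rfl

theorem orbCount_add_support :
    orbCount σ + σ.support.card = Fintype.card X + σ.cycleFactorsFinset.card := by
  rw [orbCount_eq]
  have := σ.support.card_le_univ
  omega

theorem sign_eq_neg_one_pow_orbCount :
    sign σ = (-1 : ℤˣ) ^ (Fintype.card X + orbCount σ) := by
  rw [sign_of_cycleType, sum_cycleType, card_cycleType_eq]
  have h := orbCount_add_support σ
  have h2 : Fintype.card X + orbCount σ + 2 * σ.support.card
      = σ.support.card + σ.cycleFactorsFinset.card + 2 * Fintype.card X := by omega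
  have h3 : (-1 : ℤˣ) ^ (Fintype.card X + orbCount σ + 2 * σ.support.card)
      = (-1 : ℤˣ) ^ (σ.support.card + σ.cycleFactorsFinset.card + 2 * Fintype.card X) := by
    rw [h2]
  simpa [pow_add, pow_mul] using h3.symm

theorem orbCount_of_pow_prime {p : ℕ} [hp : Fact p.Prime] (h : σ ^ p = 1) :
    p * orbCount σ = Fintype.card X + (p - 1) * Fintype.card (Function.fixedPoints σ) := by
  have hct := cycleType_of_pow_prime_eq_one h
  have hsum : σ.cycleType.sum = σ.cycleFactorsFinset.card * p := by
    rw [hct, Multiset.sum_replicate, card_cycleType_eq, smul_eq_mul]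
  rw [sum_cycleType] at hsum
  have hfix := card_fixedPoints σ
  rw [sum_cycleType] at hfix
  have h1 := orbCount_add_support σ
  have hle := σ.support.card_le_univ
  have hp1 : 1 ≤ p := hp.out.one_le
  obtain ⟨q, rfl⟩ : ∃ q, p = q + 1 := ⟨p - 1, by omega⟩
  simp only [Nat.add_sub_cancel]
  rw [hfix]
  have h2 : orbCount σ = Fintype.card X - σ.support.card + σ.cycleFactorsFinset.card :=
    orbCount_eq σ
  rw [h2, hsum]
  have h3 : σ.cycleFactorsFinset.card * (q + 1) ≤ Fintype.card X := hsum ▸ hle
  zify [h3]
  ring

end PermOrbits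

end Fermat.Agent.S24.GenusNat
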