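import Mathlib

set_option autoImplicit false

namespace Fermat.Agent.S24.GenusNat

open Module

/-- Scott's lemma (three operators with product one), in the weak form needed for the
Ree inequality. -/
theorem scott_three {k V : Type*} [Field k] [AddCommGroup V] [Module k V]
    [FiniteDimensional k V] (A B C : V →ₗ[k] V) (h : A ∘ₗ B ∘ₗ C = LinearMap.id) :
    finrank k V +
        finrank k ↥(LinearMap.range (LinearMap.id - A) ⊔ LinearMap.range (LinearMap.id - B))
      ≤ finrank k (LinearMap.range (LinearMap.id - A))
        + finrank k (LinearMap.range (LinearMap.id - B))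
        + finrank k (LinearMap.range (LinearMap.id - C))
        + finrank k ↥(LinearMap.ker (LinearMap.id - A) ⊓ LinearMap.ker (LinearMap.id - B)) := by
  set RA := LinearMap.range (LinearMap.id - A) with hRA
  set RB := LinearMap.range (LinearMap.id - B) with hRB
  set RC := LinearMap.range (LinearMap.id - C) with hRC
  let β : V →ₗ[k] RA × RB × RC :=
    (LinearMap.rangeRestrict (LinearMap.id - A)).prod
      ((LinearMap.rangeRestrict (LinearMap.id - B)).prod
        (LinearMap.rangeRestrict (LinearMap.id - C)))
  let δ : RA × RB × RC →ₗ[k] V :=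
    (RA.subtype).coprod ((A ∘ₗ RB.subtype).coprod ((A ∘ₗ B) ∘ₗ RC.subtype))
  have hABC : ∀ v, A (B (C v)) = v := fun v => by
    have := congrArg (fun f : V →ₗ[k] V => f v) h
    simpa using this
  have hδβ : ∀ v, δ (β v) = 0 := by
    intro v
    have e : δ (β v) = (v - A v) + (A (v - B v) + A (B (v - C v))) := by
      simp [δ, β]
    rw [e, map_sub, map_sub, map_sub, hABC]
    abel
  have h1 : LinearMap.range β ≤ LinearMap.ker δ := by
    rintro _ ⟨v, rfl⟩
    exact LinearMap.mem_ker.mpr (hδβ v)
  have h2 : LinearMap.ker β ≤ LinearMap.ker (LinearMap.id - A) ⊓ LinearMap.ker (LinearMap.id - B) := by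
    intro v hv
    have hv' : β v = 0 := LinearMap.mem_ker.mp hv
    have e1 : (β v).1 = 0 := by rw [hv']; rfl
    have e2 : (β v).2.1 = 0 := by rw [hv']; rfl
    refine ⟨LinearMap.mem_ker.mpr ?_, LinearMap.mem_ker.mpr ?_⟩
    · have := congrArg Subtype.val e1
      simpa [β] using this
    · have := congrArg Subtype.val e2
      simpa [β] using this
  have h3 : RA ⊔ RB ≤ LinearMap.range δ := by
    refine sup_le ?_ ?_
    · intro a ha
      refine ⟨(⟨a, ha⟩, 0, 0), ?_⟩
      simp [δ]
    · intro b hb
      have hb' : b - A b ∈ RA := ⟨b, by simp⟩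
      refine ⟨(⟨b - A b, hb'⟩, ⟨b, hb⟩, 0), ?_⟩
      simp [δ]
  have r1 := LinearMap.finrank_range_add_finrank_ker δ
  have r2 := LinearMap.finrank_range_add_finrank_ker β
  have r3 : finrank k (RA × RB × RC) = finrank k RA + finrank k RB + finrank k RC := by
    rw [Module.finrank_prod, Module.finrank_prod]; ring
  have m1 := Submodule.finrank_mono h1
  have m2 := Submodule.finrank_mono h2
  have m3 := Submodule.finrank_mono h3
  omega

end Fermat.Agent.S24.GenusNat
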