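import Mathlib
import Fermat.Agent.S24.GenusNat.PermOrbits
import Fermat.Agent.S24.GenusNat.Scott

set_option autoImplicit false

namespace Fermat.Agent.S24.GenusNat

open Module Equiv Equiv.Perm

section Action

variable {G X : Type*} [Group G] [MulAction G X]

/-- Number of orbits on `X` of the cyclic group generated by `g`. -/
noncomputable def orbits (X : Type*) [MulAction G X] (g : G) : ℕ :=
  Nat.card (MulAction.orbitRel.Quotient (Subgroup.zpowers g) X)

theorem toPerm_zpow_apply (g : G) (k : ℤ) (x : X) :
    ((MulAction.toPerm g : Perm X) ^ k) x = g ^ k • x := by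
  have h := (MulAction.toPermHom G X).map_zpow g k
  simp only [MulAction.toPermHom_apply] at h
  rw [← h]; rfl

theorem orbitRel_zpowers_iff (g : G) (x y : X) :
    (MulAction.orbitRel (Subgroup.zpowers g) X).r x y ↔
      SameCycle (MulAction.toPerm g : Perm X) x y := by
  change x ∈ MulAction.orbit (Subgroup.zpowers g) y ↔ _
  constructor
  · rintro ⟨⟨h, hh⟩, rfl⟩
    obtain ⟨k, rfl⟩ := Subgroup.mem_zpowers_iff.mp hh
    exact SameCycle.symm ⟨k, toPerm_zpow_apply g k y⟩
  · rintro ⟨k, hk⟩
    refine ⟨⟨g ^ (-k), Subgroup.zpow_mem_zpowers g (-k)⟩, ?_⟩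
    change g ^ (-k) • y = x
    rw [← hk, toPerm_zpow_apply, smul_smul, ← zpow_add]
    simp

theorem orbits_eq_orbCount [Fintype X] [DecidableEq X] (g : G) :
    orbits X g = orbCount (MulAction.toPerm g : Perm X) := by
  unfold orbits orbCount MulAction.orbitRel.Quotient
  exact Nat.card_congr (Quotient.congrRight fun x y => orbitRel_zpowers_iff g x y)

theorem orbits_inv (g : G) : orbits X g⁻¹ = orbits X g := by
  unfold orbits
  rw [Subgroup.zpowers_inv]

/-- Parity: `n + orb s + orb u + orb (s u)` is even (sign is a homomorphism). -/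
theorem even_card_add_orbits [Finite X] (s u : G) :
    Even (Nat.card X + orbits X s + orbits X u + orbits X (s * u)) := by
  classical
  let _ : Fintype X := Fintype.ofFinite X
  have hs : sign (MulAction.toPerm s : Perm X) = (-1 : ℤˣ) ^ (Fintype.card X + orbits X s) := by
    rw [orbits_eq_orbCount]; exact sign_eq_neg_one_pow_orbCount _
  have hu : sign (MulAction.toPerm u : Perm X) = (-1 : ℤˣ) ^ (Fintype.card X + orbits X u) := by
    rw [orbits_eq_orbCount]; exact sign_eq_neg_one_pow_orbCount _
  have hsu : sign (MulAction.toPerm (s * u) : Perm X)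
      = (-1 : ℤˣ) ^ (Fintype.card X + orbits X (s * u)) := by
    rw [orbits_eq_orbCount]; exact sign_eq_neg_one_pow_orbCount _
  have hmul : (MulAction.toPerm (s * u) : Perm X) = MulAction.toPerm s * MulAction.toPerm u :=
    (MulAction.toPermHom G X).map_mul s u
  rw [hmul, Perm.sign_mul, hs, hu, ← pow_add] at hsu
  rw [Nat.card_eq_fintype_card]
  set n := Fintype.card X
  have key : (-1 : ℤˣ) ^ (n + orbits X s + orbits X u + orbits X (s * u)) = 1 := by
    have : n + orbits X s + orbits X u + orbits X (s * u)
        = (n + orbits X s + (n + orbits X u)) + (n + orbits X (s * u)) - 2 * n := by omega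
    have h2 : (-1 : ℤˣ) ^ ((n + orbits X s + (n + orbits X u)) + (n + orbits X (s * u)))
        = 1 := by
      rw [pow_add, hsu, ← pow_add, ← two_mul, pow_mul]; simp
    have h3 : (n + orbits X s + (n + orbits X u)) + (n + orbits X (s * u))
        = (n + orbits X s + orbits X u + orbits X (s * u)) + 2 * n := by omega
    rw [h3, pow_add, pow_mul] at h2
    simpa using h2
  by_contra hodd
  rw [Nat.not_even_iff_odd] at hodd
  rw [hodd.neg_one_pow] at key
  exact absurd key (by decide)

/-- If `g ^ p` acts trivially (`p` prime), then `p * orb g = n + (p - 1) * #Fix g`. -/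
theorem orbits_of_pow_prime [Finite X] (g : G) (p : ℕ) [hp : Fact p.Prime]
    (h : ∀ x : X, g ^ p • x = x) :
    p * orbits X g = Nat.card X + (p - 1) * Nat.card (MulAction.fixedBy X g) := by
  classical
  let _ : Fintype X := Fintype.ofFinite X
  have hσ : (MulAction.toPerm g : Perm X) ^ p = 1 := by
    ext x
    have := toPerm_zpow_apply g (p : ℤ) x
    simp only [zpow_natCast] at this
    rw [this, h x]; rfl
  have key := orbCount_of_pow_prime (MulAction.toPerm g : Perm X) hσ
  rw [orbits_eq_orbCount, key, Nat.card_eq_fintype_card]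
  congr 2
  rw [← Nat.card_eq_fintype_card]
  rfl

/-- The operator `f ↦ f ∘ (g • ·)` on functions `X → ℚ`. -/
noncomputable def pullback (X : Type*) [MulAction G X] (g : G) : (X → ℚ) →ₗ[ℚ] (X → ℚ) :=
  LinearMap.funLeft ℚ ℚ (fun x => g • x)

@[simp] theorem pullback_apply (g : G) (f : X → ℚ) (x : X) : pullback X g f x = f (g • x) := rfl

theorem pullback_comp (g h : G) : pullback X g ∘ₗ pullback X h = pullback X (h * g) := by
  ext f x
  simp [mul_smul]

theorem pullback_one : pullback X (1 : G) = LinearMap.id := by
  ext f x
  simp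

theorem mem_ker_iff (g : G) (f : X → ℚ) :
    f ∈ LinearMap.ker (LinearMap.id - pullback X g) ↔ ∀ x, f (g • x) = f x := by
  rw [LinearMap.mem_ker, LinearMap.sub_apply, LinearMap.id_apply, sub_eq_zero]
  constructor
  · intro h x
    have := congrFun h x
    simpa using this.symm
  · intro h
    ext x
    simpa using (h x).symm

theorem invariant_of_mem_closure {f : X → ℚ} {S : Set G} (hf : ∀ g ∈ S, ∀ x, f (g • x) = f x)
    {h : G} (hh : h ∈ Subgroup.closure S) (x : X) : f (h • x) = f x := by
  induction hh using Subgroup.closure_induction generalizing x with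
  | mem g hg => exact hf g hg x
  | one => simp
  | mul a b _ _ ha hb => rw [mul_smul, ha, hb]
  | inv a _ ha =>
    have := ha (a⁻¹ • x)
    rw [smul_inv_smul] at this
    exact this.symm

theorem ker_eq_range (g : G) :
    LinearMap.ker (LinearMap.id - pullback X g) =
      LinearMap.range (LinearMap.funLeft ℚ ℚ
        (Quotient.mk (MulAction.orbitRel (Subgroup.zpowers g) X))) := by
  ext f
  rw [mem_ker_iff]
  constructor
  · intro hf
    have hinv : ∀ a b : X, (MulAction.orbitRel (Subgroup.zpowers g) X).r a b → f a = f b := by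
      rintro a b ⟨⟨h, hh⟩, rfl⟩
      have hh' : h ∈ Subgroup.closure ({g} : Set G) := by
        rwa [← Subgroup.zpowers_eq_closure]
      exact invariant_of_mem_closure (S := {g}) (fun g' hg' x => by
        rw [Set.mem_singleton_iff.mp hg']; exact hf x) hh' b
    refine ⟨Quotient.lift f hinv, ?_⟩
    ext x
    rfl
  · rintro ⟨F, rfl⟩ x
    change F (Quotient.mk _ (g • x)) = F (Quotient.mk _ x)
    congr 1
    apply Quotient.sound
    exact ⟨⟨g, Subgroup.mem_zpowers g⟩, rfl⟩

theorem finrank_ker [Finite X] (g : G) :
    finrank ℚ (LinearMap.ker (LinearMap.id - pullback X g)) = orbits X g := by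
  classical
  let _ : Fintype X := Fintype.ofFinite X
  let _ : Fintype (Quotient (MulAction.orbitRel (Subgroup.zpowers g) X)) := Fintype.ofFinite _
  rw [ker_eq_range, LinearMap.finrank_range_of_inj
    (LinearMap.funLeft_injective_of_surjective ℚ ℚ _ Quotient.mk_surjective),
    Module.finrank_fintype_fun_eq_card, orbits, Nat.card_eq_fintype_card]

theorem finrank_range [Finite X] (g : G) :
    finrank ℚ (LinearMap.range (LinearMap.id - pullback X g)) + orbits X g = Nat.card X := by
  classical
  let _ : Fintype X := Fintype.ofFinite X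
  have := LinearMap.finrank_range_add_finrank_ker (LinearMap.id - pullback X g)
  rw [finrank_ker, Module.finrank_fintype_fun_eq_card] at this
  rw [this, Nat.card_eq_fintype_card]

/-- Ree's inequality for three permutations with product one generating a transitive group
(via Scott's lemma). -/
theorem orbits_add_le [Finite X] [Nonempty X] (s u : G)
    (htrans : ∀ x y : X, ∃ g ∈ Subgroup.closure ({s, u} : Set G), g • x = y) :
    orbits X s + orbits X u + orbits X (s * u) ≤ Nat.card X + 2 := by
  classical
  let _ : Fintype X := Fintype.ofFinite X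
  obtain ⟨x₀⟩ := ‹Nonempty X›
  have hABC : pullback X u ∘ₗ pullback X s ∘ₗ pullback X (s * u)⁻¹ = LinearMap.id := by
    rw [← LinearMap.comp_assoc, pullback_comp, pullback_comp, inv_mul_cancel, pullback_one]
  have key := scott_three (pullback X u) (pullback X s) (pullback X (s * u)⁻¹) hABC
  -- the invariants are the constants
  have hK : finrank ℚ ↥(LinearMap.ker (LinearMap.id - pullback X u) ⊓
      LinearMap.ker (LinearMap.id - pullback X s)) ≤ 1 := by
    set K := LinearMap.ker (LinearMap.id - pullback X u) ⊓
      LinearMap.ker (LinearMap.id - pullback X s) with hKdef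
    let ev : K →ₗ[ℚ] ℚ := (LinearMap.proj x₀) ∘ₗ K.subtype
    have hinj : Function.Injective ev := by
      rw [← LinearMap.ker_eq_bot, LinearMap.ker_eq_bot']
      rintro ⟨f, hf⟩ hfx
      have hfu := (mem_ker_iff u f).mp hf.1
      have hfs := (mem_ker_iff s f).mp hf.2
      have hfx' : f x₀ = 0 := hfx
      apply Subtype.ext
      funext y
      obtain ⟨g, hg, rfl⟩ := htrans x₀ y
      have := invariant_of_mem_closure (f := f) (S := {s, u}) (by
        intro g' hg' x
        rcases hg' with rfl | hg'
        · exact hfs x
        · rw [Set.mem_singleton_iff.mp hg']; exact hfu x) hg x₀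
      show f (g • x₀) = 0
      rw [this, hfx']
    have := LinearMap.finrank_le_finrank_of_injective hinj
    simpa using this
  -- the coinvariants are one-dimensional
  have hR : Nat.card X ≤ finrank ℚ ↥(LinearMap.range (LinearMap.id - pullback X u) ⊔
      LinearMap.range (LinearMap.id - pullback X s)) + 1 := by
    set W := LinearMap.range (LinearMap.id - pullback X u) ⊔
      LinearMap.range (LinearMap.id - pullback X s) with hW
    have hgen : ∀ g ∈ ({s, u} : Set G), ∀ x : X,
        (Pi.single (g • x) (1 : ℚ) - Pi.single x (1 : ℚ) : X → ℚ) ∈ W := by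
      intro g hg x
      have hmem : (Pi.single (g • x) (1 : ℚ) - Pi.single x (1 : ℚ) : X → ℚ)
          ∈ LinearMap.range (LinearMap.id - pullback X g) := by
        refine ⟨Pi.single (g • x) (1 : ℚ), ?_⟩
        ext y
        simp only [LinearMap.sub_apply, LinearMap.id_apply, Pi.sub_apply, pullback_apply]
        congr 1
        by_cases hy : y = x
        · subst hy; simp
        · have : g • y ≠ g • x := fun h => hy (smul_left_cancel g h)
          simp [hy, this]
      rcases hg with rfl | hg
      · exact (le_sup_right : _ ≤ W) hmem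
      · rw [Set.mem_singleton_iff.mp hg] at hmem ⊢
        exact (le_sup_left : _ ≤ W) hmem
    have hclo : ∀ g ∈ Subgroup.closure ({s, u} : Set G), ∀ x : X,
        (Pi.single (g • x) (1 : ℚ) - Pi.single x (1 : ℚ) : X → ℚ) ∈ W := by
      intro g hg
      induction hg using Subgroup.closure_induction with
      | mem g hg => exact hgen g hg
      | one => intro x; simp
      | mul a b _ _ ha hb =>
        intro x
        have h1 := ha (b • x)
        have h2 := hb x
        have := W.add_mem h1 h2
        rw [mul_smul]
        convert this using 1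
        abel
      | inv a _ ha =>
        intro x
        have h1 := ha (a⁻¹ • x)
        rw [smul_inv_smul] at h1
        have := W.neg_mem h1
        convert this using 1
        abel
    have htop : W ⊔ Submodule.span ℚ {(Pi.single x₀ (1 : ℚ) : X → ℚ)} = ⊤ := by
      rw [eq_top_iff]
      intro f _
      have hf : f = ∑ y, f y • (Pi.single y (1 : ℚ) : X → ℚ) := by
        ext z
        simp [Finset.sum_apply, Pi.single_apply]
      rw [hf]
      refine Submodule.sum_mem _ fun y _ => Submodule.smul_mem _ _ ?_
      obtain ⟨g, hg, rfl⟩ := htrans x₀ y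
      have h1 := hclo g hg x₀
      have h2 : (Pi.single x₀ (1 : ℚ) : X → ℚ) ∈ Submodule.span ℚ {(Pi.single x₀ (1 : ℚ) : X → ℚ)} :=
        Submodule.subset_span rfl
      have h3 : (Pi.single (g • x₀) (1 : ℚ) - Pi.single x₀ (1 : ℚ) : X → ℚ)
          ∈ W ⊔ Submodule.span ℚ {(Pi.single x₀ (1 : ℚ) : X → ℚ)} := Submodule.mem_sup_left h1
      have h4 : (Pi.single x₀ (1 : ℚ) : X → ℚ)
          ∈ W ⊔ Submodule.span ℚ {(Pi.single x₀ (1 : ℚ) : X → ℚ)} := Submodule.mem_sup_right h2
      have := Submodule.add_mem _ h3 h4
      convert this using 1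
      abel
    have hdim : finrank ℚ (X → ℚ) = Nat.card X := by
      rw [Module.finrank_fintype_fun_eq_card, Nat.card_eq_fintype_card]
    have h1 := Submodule.finrank_add_le_finrank_add_finrank W
      (Submodule.span ℚ {(Pi.single x₀ (1 : ℚ) : X → ℚ)})
    rw [htop, finrank_top, hdim] at h1
    have h2 : finrank ℚ ↥(Submodule.span ℚ {(Pi.single x₀ (1 : ℚ) : X → ℚ)}) ≤ 1 := by
      have := finrank_span_le_card (R := ℚ) ({(Pi.single x₀ (1 : ℚ) : X → ℚ)} : Set (X → ℚ))
      simpa using this
    omega
  have e1 := finrank_range (X := X) u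
  have e2 := finrank_range (X := X) s
  have e3 := finrank_range (X := X) (s * u)⁻¹
  rw [orbits_inv] at e3
  have hdim : finrank ℚ (X → ℚ) = Nat.card X := by
    rw [Module.finrank_fintype_fun_eq_card, Nat.card_eq_fintype_card]
  rw [hdim] at key
  omega

end Action

end Fermat.Agent.S24.GenusNat
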