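import Mathlib
import Fermat.Prelude.Def_ModularCurve_GenusNumerics
import Fermat.Agent.Lib.Gamma0Index
import Fermat.Agent.Lib.Gamma0Cusps
import Fermat.Agent.S24.GenusNat.Action

set_option autoImplicit false

namespace Fermat.Agent.S24.GenusNat

open Matrix MatrixGroups CongruenceSubgroup ModularGroup ModularCurve

section Gamma0

variable (N : ℕ)

theorem dedekindPsi_pos (hN : N ≠ 0) : 0 < dedekindPsi N := by
  unfold dedekindPsi
  apply Finset.sum_pos'
  · intro d _; exact Nat.zero_le _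
  · refine ⟨1, ?_, ?_⟩
    · simp [hN]
    · simpa using Nat.pos_of_ne_zero hN

theorem finite_quotient (hN : N ≠ 0) : Finite (SL(2, ℤ) ⧸ Gamma0 N) := by
  apply Nat.finite_of_card_ne_zero
  rw [Fermat.Agent.Lib.Gamma0Count.card_quotient_Gamma0 N hN]
  exact (dedekindPsi_pos N hN).ne'

theorem neg_one_smul (x : SL(2, ℤ) ⧸ Gamma0 N) : (-1 : SL(2, ℤ)) • x = x := by
  induction x using QuotientGroup.induction_on with
  | H g =>
    show (QuotientGroup.mk ((-1 : SL(2, ℤ)) * g) : SL(2, ℤ) ⧸ Gamma0 N) = QuotientGroup.mk g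
    rw [QuotientGroup.eq, Gamma0_mem]
    have h : ((-1 : SL(2, ℤ)) * g)⁻¹ = -1 * g⁻¹ := by
      apply inv_eq_of_mul_eq_one_right
      simp
    rw [h]
    simp

theorem S_sq : S ^ 2 = (-1 : SL(2, ℤ)) := by
  apply Subtype.ext
  show (S : Matrix (Fin 2) (Fin 2) ℤ) ^ 2 = -1
  rw [pow_two, S_mul_S_eq]

theorem ST_cube : (S * T) ^ 3 = (-1 : SL(2, ℤ)) := by
  apply Subtype.ext
  show ((S : Matrix (Fin 2) (Fin 2) ℤ) * (T : Matrix (Fin 2) (Fin 2) ℤ)) ^ 3 = -1
  rw [coe_S, coe_T, pow_succ, pow_succ, pow_one]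
  simp [Matrix.one_fin_two]

theorem closure_Sinv_ST : Subgroup.closure ({S⁻¹, S * T} : Set SL(2, ℤ)) = ⊤ := by
  rw [eq_top_iff, ← SpecialLinearGroup.SL2Z_generators, Subgroup.closure_le]
  rintro g (rfl | hg)
  · have : S⁻¹ ∈ Subgroup.closure ({S⁻¹, S * T} : Set SL(2, ℤ)) :=
      Subgroup.subset_closure (Set.mem_insert _ _)
    simpa using Subgroup.inv_mem _ this
  · rw [Set.mem_singleton_iff.mp hg]
    have h1 : S⁻¹ ∈ Subgroup.closure ({S⁻¹, S * T} : Set SL(2, ℤ)) :=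
      Subgroup.subset_closure (Set.mem_insert _ _)
    have h2 : S * T ∈ Subgroup.closure ({S⁻¹, S * T} : Set SL(2, ℤ)) :=
      Subgroup.subset_closure (Set.mem_insert_of_mem _ rfl)
    have := Subgroup.mul_mem _ h1 h2
    simpa using this

/-- Orbit count of `S` on the cosets. -/
theorem two_mul_orbits_S (hN : N ≠ 0) :
    2 * orbits (SL(2, ℤ) ⧸ Gamma0 N) S = dedekindPsi N + nuTwo N := by
  have := finite_quotient N hN
  have : Fact (Nat.Prime 2) := ⟨Nat.prime_two⟩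
  have h := orbits_of_pow_prime (X := SL(2, ℤ) ⧸ Gamma0 N) S 2
    (fun x => by rw [S_sq]; exact neg_one_smul N x)
  rw [Fermat.Agent.Lib.Gamma0Count.card_quotient_Gamma0 N hN,
    Fermat.Agent.Lib.Gamma0Count.card_fixedBy_S] at h
  simpa using h

/-- Orbit count of `S * T` on the cosets. -/
theorem three_mul_orbits_ST (hN : N ≠ 0) :
    3 * orbits (SL(2, ℤ) ⧸ Gamma0 N) (S * T) = dedekindPsi N + 2 * nuThree N := by
  have := finite_quotient N hN
  have : Fact (Nat.Prime 3) := ⟨Nat.prime_three⟩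
  have h := orbits_of_pow_prime (X := SL(2, ℤ) ⧸ Gamma0 N) (S * T) 3
    (fun x => by rw [ST_cube]; exact neg_one_smul N x)
  rw [Fermat.Agent.Lib.Gamma0Count.card_quotient_Gamma0 N hN,
    Fermat.Agent.Lib.Gamma0Count.card_fixedBy_ST] at h
  simpa using h

/-- Orbit count of `T` on the cosets. -/
theorem orbits_T (hN : N ≠ 0) :
    orbits (SL(2, ℤ) ⧸ Gamma0 N) T = cuspCount N :=
  Fermat.Agent.Lib.Gamma0Count.card_orbits_T N hN

/-- Parity of the Riemann–Hurwitz count. -/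
theorem even_count (hN : N ≠ 0) :
    Even (dedekindPsi N + orbits (SL(2, ℤ) ⧸ Gamma0 N) S
      + orbits (SL(2, ℤ) ⧸ Gamma0 N) (S * T) + orbits (SL(2, ℤ) ⧸ Gamma0 N) T) := by
  have := finite_quotient N hN
  have h := even_card_add_orbits (X := SL(2, ℤ) ⧸ Gamma0 N) S⁻¹ (S * T)
  rw [orbits_inv, inv_mul_cancel_left,
    Fermat.Agent.Lib.Gamma0Count.card_quotient_Gamma0 N hN] at h
  exact h

/-- Ree's inequality for the three generators. -/
theorem count_le (hN : N ≠ 0) :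
    orbits (SL(2, ℤ) ⧸ Gamma0 N) S + orbits (SL(2, ℤ) ⧸ Gamma0 N) (S * T)
      + orbits (SL(2, ℤ) ⧸ Gamma0 N) T ≤ dedekindPsi N + 2 := by
  have := finite_quotient N hN
  have : Nonempty (SL(2, ℤ) ⧸ Gamma0 N) := ⟨QuotientGroup.mk 1⟩
  have h := orbits_add_le (X := SL(2, ℤ) ⧸ Gamma0 N) S⁻¹ (S * T) (by
    intro x y
    obtain ⟨g, rfl⟩ := MulAction.exists_smul_eq SL(2, ℤ) x y
    exact ⟨g, by rw [closure_Sinv_ST]; trivial, rfl⟩)
  rw [orbits_inv, inv_mul_cancel_left,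
    Fermat.Agent.Lib.Gamma0Count.card_quotient_Gamma0 N hN] at h
  exact h

/-- The genus formula in terms of orbit counts. -/
theorem genusFormula_eq_orbits (hN : N ≠ 0) :
    2 * genusFormula N - 2 = (dedekindPsi N : ℚ)
      - orbits (SL(2, ℤ) ⧸ Gamma0 N) S - orbits (SL(2, ℤ) ⧸ Gamma0 N) (S * T)
      - orbits (SL(2, ℤ) ⧸ Gamma0 N) T := by
  have h2 := two_mul_orbits_S N hN
  have h3 := three_mul_orbits_ST N hN
  have hT := orbits_T N hN
  have h2' : (orbits (SL(2, ℤ) ⧸ Gamma0 N) S : ℚ) = ((dedekindPsi N : ℚ) + nuTwo N) / 2 := by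
    have : (2 : ℚ) * orbits (SL(2, ℤ) ⧸ Gamma0 N) S = (dedekindPsi N : ℚ) + nuTwo N := by
      exact_mod_cast h2
    linarith
  have h3' : (orbits (SL(2, ℤ) ⧸ Gamma0 N) (S * T) : ℚ)
      = ((dedekindPsi N : ℚ) + 2 * nuThree N) / 3 := by
    have : (3 : ℚ) * orbits (SL(2, ℤ) ⧸ Gamma0 N) (S * T)
        = (dedekindPsi N : ℚ) + 2 * nuThree N := by
      exact_mod_cast h3
    linarith
  rw [h2', h3', hT, genusFormula]
  ring

/-- The genus formula takes values in the natural numbers. -/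
theorem exists_nat_eq_genusFormula (hN : N ≠ 0) : ∃ g : ℕ, (g : ℚ) = genusFormula N := by
  have hev := even_count N hN
  have hle := count_le N hN
  have heq := genusFormula_eq_orbits N hN
  set a := orbits (SL(2, ℤ) ⧸ Gamma0 N) S
  set b := orbits (SL(2, ℤ) ⧸ Gamma0 N) (S * T)
  set c := orbits (SL(2, ℤ) ⧸ Gamma0 N) T
  set n := dedekindPsi N
  obtain ⟨k, hk⟩ := hev
  have hk' : k ≤ n + 1 := by omega
  refine ⟨n + 1 - k, ?_⟩
  have hcast : ((n + 1 - k : ℕ) : ℚ) = (n : ℚ) + 1 - k := by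
    rw [Nat.cast_sub hk']; push_cast; ring
  rw [hcast]
  have hkq : (n : ℚ) + a + b + c = 2 * k := by
    have h' : ((n + a + b + c : ℕ) : ℚ) = ((k + k : ℕ) : ℚ) := by rw [hk]
    push_cast at h'
    linarith
  linarith

/-- Ready-to-use wrapper for the definition of the genus. -/
theorem toNat_div_two_eq_genusFormula (hN : N ≠ 0) (D : ℤ)
    (hD : (D : ℚ) = 2 * genusFormula N - 2) :
    (((D + 2).toNat / 2 : ℕ) : ℚ) = genusFormula N := by
  obtain ⟨g, hg⟩ := exists_nat_eq_genusFormula N hN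
  have hD' : D = 2 * (g : ℤ) - 2 := by
    have : (D : ℚ) = ((2 * (g : ℤ) - 2 : ℤ) : ℚ) := by
      push_cast
      rw [hD, ← hg]
    exact_mod_cast this
  have h1 : (D + 2).toNat = 2 * g := by
    rw [hD']
    have : (2 * (g : ℤ) - 2 + 2) = ((2 * g : ℕ) : ℤ) := by push_cast; ring
    rw [this, Int.toNat_natCast]
  rw [h1, Nat.mul_div_cancel_left g (by norm_num : 0 < 2), hg]

end Gamma0

end Fermat.Agent.S24.GenusNat
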